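import Fermat.Agent.Inertia.Lift2

/-!
# A character of `Gal(ℚ̄/ℚ)` which is unramified everywhere is trivial
-/

set_option autoImplicit false
set_option linter.style.haveILetI false

open scoped Pointwise NumberField

namespace Fermat.Agent.Inertia

open Fermat.Agent.GaloisBasics

/-- A ramified prime of a Galois number field has a nontrivial inertia group. -/
theorem exists_inertia_ne_one {K : Type*} [Field K] [NumberField K] [IsGalois ℚ K]
    (P : Ideal (𝓞 K)) [P.IsPrime] (hP : ¬ Algebra.IsUnramifiedAt ℤ P) :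
    ∃ g : K ≃ₐ[ℚ] K, g ≠ 1 ∧ ∀ x : 𝓞 K, g • x - x ∈ P := by
  have hcard := Ideal.card_inertia_eq_ramificationIdxIn (G := K ≃ₐ[ℚ] K) (P.under ℤ) P
  rw [Ideal.ramificationIdxIn_eq_ramificationIdx (P.under ℤ) P (K ≃ₐ[ℚ] K)] at hcard
  have hne : Nat.card (P.inertia (K ≃ₐ[ℚ] K)) ≠ 1 := by
    rw [hcard]
    exact fun h => hP (Ideal.ramificationIdx_eq_one_iff.mp h)
  by_contra hcon
  push Not at hcon
  apply hne
  have hbot : P.inertia (K ≃ₐ[ℚ] K) = ⊥ := by
    rw [eq_bot_iff]
    intro g hg
    rw [Subgroup.mem_bot]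
    by_contra hg1
    obtain ⟨x, hx⟩ := hcon g hg1
    exact hx (hg x)
  rw [hbot]
  simp

/-- The field of algebraic numbers. -/
local notation "Qb" => AlgebraicClosure ℚ
/-- The ring of algebraic integers. -/
local notation "Zb" => integralClosure ℤ (AlgebraicClosure ℚ)
/-- The absolute Galois group. -/
local notation "GQ" => (AlgebraicClosure ℚ ≃ₐ[ℚ] AlgebraicClosure ℚ)

/-- Extension of automorphisms of subfields. -/
lemma exists_extension (F : IntermediateField ℚ Qb) (g : F ≃+* F) :
    ∃ τ : GQ, ∀ x : F, τ (x : Qb) = (g x : Qb) := by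
  let g' : @AlgEquiv ℚ F F _ _ _ F.algebra' F.algebra' :=
    @AlgEquiv.ofRingEquiv ℚ F F _ _ _ F.algebra' F.algebra' g (fun r => by
      rw [eq_ratCast (@algebraMap ℚ F _ _ F.algebra'), map_ratCast])
  letI : Algebra ℚ F := F.algebra'
  haveI : IsScalarTower ℚ F Qb := IntermediateField.isScalarTower_mid' F
  refine ⟨AlgEquiv.liftNormal g' Qb, fun x => ?_⟩
  exact AlgEquiv.liftNormal_commutes g' Qb x

/-- **Minkowski**: an open normal subgroup of `Gal(ℚ̄/ℚ)` containing an inertia group at every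
prime is the whole group. -/
theorem eq_top_of_inertia_le (H : Subgroup GQ) (hopen : IsOpen (H : Set GQ)) (hn : H.Normal)
    (h : ∀ q : ℕ, q.Prime → ∃ V : ValuationSubring Qb, V.LiesOverPrime q ∧
      V.inertiaSubgroupIn ℚ ≤ H) : H = ⊤ := by
  let Hc : ClosedSubgroup GQ := ⟨H, Subgroup.isClosed_of_isOpen H hopen⟩
  set F : IntermediateField ℚ Qb := IntermediateField.fixedField H with hF
  have hFH : F.fixingSubgroup = H := InfiniteGalois.fixingSubgroup_fixedField Hc
  have hfin' : @FiniteDimensional ℚ F _ _ F.algebra'.toModule := by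
    rw [← InfiniteGalois.isOpen_iff_finite]
    change IsOpen (F.fixingSubgroup : Set GQ)
    rw [hFH]
    exact hopen
  have hgal' : @IsGalois ℚ _ F _ F.algebra' := by
    rw [← InfiniteGalois.normal_iff_isGalois, hFH]
    exact hn
  have halg : (DivisionRing.toRatAlgebra : Algebra ℚ F) = F.algebra' := Subsingleton.elim _ _
  have hfin : FiniteDimensional ℚ F := by
    exact hfin'
  have hgal : IsGalois ℚ F := by rw [halg]; exact hgal'
  have hnf : NumberField F := { to_charZero := inferInstance, to_finiteDimensional := hfin }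
  have hstab : ∀ g : GQ, ∀ x ∈ F, g x ∈ F := by
    intro g x hx
    have h1 : F.map (g : Qb →ₐ[ℚ] Qb) = F := by
      exact (IntermediateField.normal_iff_forall_map_eq' (F := ℚ) (L := Qb) (K := F)).mp
        hgal'.to_normal g
    rw [← h1]
    exact ⟨x, hx, rfl⟩
  by_contra htop
  -- `F ≠ ℚ`
  have hrank : 1 < Module.finrank ℚ F := by
    by_contra hle
    have hpos : 0 < Module.finrank ℚ F := Module.finrank_pos
    have h1 : Module.finrank ℚ F = 1 := by omega
    apply htop
    rw [← hFH, eq_top_iff]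
    intro g _
    rw [IntermediateField.mem_fixingSubgroup_iff]
    intro x hx
    have h2 : F = ⊥ := by
      apply IntermediateField.finrank_eq_one_iff.mp
      exact h1
    rw [h2, IntermediateField.mem_bot] at hx
    obtain ⟨c, rfl⟩ := hx
    exact g.commutes c
  obtain ⟨q, hq, hram⟩ := NumberField.exists_not_isUnramifiedAt_int_of_isGalois (K := F)
    (𝒪 := 𝓞 F) hrank
  obtain ⟨V, hV, hVH⟩ := h q hq
  -- the prime of `𝓞 F` below `V`
  let ι : 𝓞 F →+* Zb :=
    { toFun := fun x => ⟨((x : F) : Qb), by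
        have hx : IsIntegral ℤ (x : F) := x.2
        exact hx.map (F.val.restrictScalars ℤ)⟩
      map_one' := rfl
      map_mul' := fun _ _ => rfl
      map_zero' := rfl
      map_add' := fun _ _ => rfl }
  have hι : ∀ x : 𝓞 F, ((ι x : Zb) : Qb) = ((x : F) : Qb) := fun _ => rfl
  let P : Ideal (𝓞 F) := (idealOf V).comap ι
  have hqP : ((q : ℕ) : 𝓞 F) ∈ P := by
    change ι (q : 𝓞 F) ∈ idealOf V
    rw [map_natCast, mem_idealOf]
    exact_mod_cast hV
  obtain ⟨g, hg1, hg⟩ := exists_inertia_ne_one P (hram P inferInstance hqP)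
  obtain ⟨τ, hτ⟩ := exists_extension F g.toRingEquiv
  obtain ⟨ρ, hρ, hρF⟩ := exists_inertia_lift F hstab V τ (by
    intro x hx
    have hxi : IsIntegral ℤ (⟨x, hx⟩ : F) := by
      have hx' : IsIntegral ℤ (x : Qb) := x.2
      exact (isIntegral_algHom_iff (F.val.restrictScalars ℤ) F.val.injective).mp hx'
    obtain ⟨z, hz⟩ : ∃ z : 𝓞 F, (z : F) = ⟨x, hx⟩ := ⟨⟨⟨x, hx⟩, hxi⟩, rfl⟩
    have h1 : ι (g • z - z) ∈ idealOf V := hg z
    rw [map_sub] at h1
    have h2 : ι z = x := by
      apply Subtype.ext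
      rw [hι, hz]
    have h3 : ι (g • z) = τ • x := by
      apply Subtype.ext
      rw [hι]
      have h4 : ((g • z : 𝓞 F) : F) = g (z : F) := rfl
      rw [h4, hz]
      exact (hτ ⟨x, hx⟩).symm
    rw [h2, h3] at h1
    exact h1)
  apply hg1
  have hρH := hVH hρ
  rw [← hFH, IntermediateField.mem_fixingSubgroup_iff] at hρH
  ext x
  have h2 := hρF x x.2
  rw [hρH x x.2, hτ x] at h2
  exact h2.symm

end Fermat.Agent.Inertia
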