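import Fermat.Agent.Inertia.Lift2

/-!
# Lifting elements of finite level decomposition groups
-/

set_option autoImplicit false
set_option linter.style.haveILetI false

open scoped Pointwise

namespace Fermat.Agent.Inertia

open Fermat.Agent.GaloisBasics

/-- The field of algebraic numbers. -/
local notation "Qb" => AlgebraicClosure ℚ
/-- The ring of algebraic integers. -/
local notation "Zb" => integralClosure ℤ (AlgebraicClosure ℚ)
/-- The absolute Galois group. -/
local notation "GQ" => (AlgebraicClosure ℚ ≃ₐ[ℚ] AlgebraicClosure ℚ)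

variable (F : IntermediateField ℚ (AlgebraicClosure ℚ))

/-- Surjectivity of the decomposition group of `V` onto the decomposition group at a
Galois-stable level `F`: if `τ` stabilises the prime of `F` below `V`, some element of the
decomposition group of `V` has the same restriction to `F`. -/
theorem exists_decomposition_lift (hstab : ∀ g : GQ, ∀ x ∈ F, g x ∈ F) (V : ValuationSubring Qb)
    (τ : GQ) (hτ : ∀ x : Zb, (x : Qb) ∈ F → (τ • x ∈ idealOf V ↔ x ∈ idealOf V)) :
    ∃ ρ ∈ V.decompositionSubgroup ℚ, ∀ x ∈ F, ρ x = τ x := by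
  letI : TopologicalSpace Zb := ⊥
  haveI : DiscreteTopology Zb := ⟨rfl⟩
  haveI : ContinuousSMul GQ Zb := by
    rw [continuousSMul_iff_stabilizer_isOpen]
    intro x
    convert stabilizer_isOpen_of_isIntegral (K := ℚ) (L := Qb) (x : Qb) using 1
    ext g
    simp only [SetLike.mem_coe, MulAction.mem_stabilizer_iff]
    exact Subtype.ext_iff
  haveI : ContinuousSMul F.fixingSubgroup Zb := inferInstance
  set Q := idealOf V with hQ
  have hunder : (τ • Q).under (intF F) = Q.under (intF F) := by
    ext x
    rw [Ideal.mem_comap, Ideal.mem_comap]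
    change ((x : Zb) ∈ τ • Q) ↔ (x : Zb) ∈ Q
    have h1 : (τ⁻¹ • (x : Zb)) ∈ Q ↔ (x : Zb) ∈ τ • Q := by
      rw [← Ideal.mem_inv_pointwise_smul_iff, inv_inv]
    rw [← h1]
    have h2 := hτ (τ⁻¹ • (x : Zb)) (hstab τ⁻¹ _ x.2)
    rw [smul_inv_smul] at h2
    exact h2.symm
  haveI : (τ • Q).IsPrime := inferInstance
  obtain ⟨g, hg⟩ := Algebra.IsInvariant.exists_smul_of_under_eq_of_profinite (A := intF F)
    (G := F.fixingSubgroup) (τ • Q) Q hunder
  refine ⟨(g : GQ) * τ, ?_, ?_⟩
  · apply mem_decompositionSubgroup_of_mem_stabilizer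
    change ((g : GQ) * τ) • Q = Q
    rw [mul_smul]
    exact hg.symm
  · intro x hx
    change (g : GQ) (τ x) = τ x
    exact (IntermediateField.mem_fixingSubgroup_iff F _).mp g.2 _ (hstab τ x hx)

end Fermat.Agent.Inertia
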