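import Fermat.Agent.GaloisBasics.FrobeniusExists
import Fermat.Prelude.Def_FLTPrelim_Ramification

/-!
# Lifting elements of finite level inertia groups
-/

set_option autoImplicit false
set_option linter.style.haveILetI false

open scoped Pointwise

namespace Fermat.Agent.Inertia

open Fermat.Agent.GaloisBasics

/-- The field of algebraic numbers. -/
local notation "Qb" => AlgebraicClosure ℚ
/-- The ring of algebraic integers. -/
local notation "Zb" => integralClosure ℤ (AlgebraicClosure ℚ)
/-- The absolute Galois group. -/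
local notation "GQ" => (AlgebraicClosure ℚ ≃ₐ[ℚ] AlgebraicClosure ℚ)

/-- An element of the Galois group stabilising the prime of `Zb` attached to `V`, and acting
trivially on its residue ring, is in the inertia group of `V`. -/
theorem mem_inertiaSubgroupIn (V : ValuationSubring Qb) {σ : GQ}
    (hσ : σ ∈ MulAction.stabilizer GQ (idealOf V))
    (h : ∀ x : Zb, σ • x - x ∈ idealOf V) : σ ∈ V.inertiaSubgroupIn ℚ := by
  have hD := mem_decompositionSubgroup_of_mem_stabilizer V σ hσ
  rw [ValuationSubring.inertiaSubgroupIn, Subgroup.mem_map]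
  refine ⟨⟨σ, hD⟩, ?_, rfl⟩
  rw [ValuationSubring.inertiaSubgroup, MonoidHom.mem_ker]
  set σ' : V.decompositionSubgroup ℚ := ⟨σ, hD⟩ with hσ'
  have key : ∀ z : V, (z : Qb) ∈ Zb →
      IsLocalRing.residue V (σ' • z) = IsLocalRing.residue V z := by
    intro z hz
    rw [← sub_eq_zero, ← map_sub, IsLocalRing.residue_eq_zero_iff,
      ← ValuationSubring.coe_mem_nonunits_iff]
    exact h ⟨z, hz⟩
  ext y
  obtain ⟨x, rfl⟩ := IsLocalRing.residue_surjective y
  obtain ⟨b, hb, hxb, hbV⟩ := mem_integralClosure_of_div V x.2 (isAlgebraic_int_Qbar x)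
  have hbV' : b ∈ V := integralClosure_le_valuationSubring V hb
  have h1 := key ⟨b, hbV'⟩ hb
  have h2 := key (x * (⟨b, hbV'⟩ : V)) hxb
  have hne : IsLocalRing.residue V ⟨b, hbV'⟩ ≠ 0 := by
    rw [Ne, IsLocalRing.residue_eq_zero_iff, ← ValuationSubring.coe_mem_nonunits_iff]
    exact hbV
  rw [smul_mul', map_mul, h1, map_mul] at h2
  show IsLocalRing.residue V (σ' • x) = _
  exact mul_right_cancel₀ hne h2

section relative

variable (F : IntermediateField ℚ (AlgebraicClosure ℚ))

/-- The ring of integers of `F` inside `Zb`. -/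
noncomputable def intF : Subalgebra ℤ (integralClosure ℤ (AlgebraicClosure ℚ)) where
  carrier := {x | (x : Qb) ∈ F}
  mul_mem' := fun ha hb => F.mul_mem ha hb
  one_mem' := F.one_mem
  add_mem' := fun ha hb => F.add_mem ha hb
  zero_mem' := F.zero_mem
  algebraMap_mem' := fun r => by
    show (((algebraMap ℤ Zb) r : Zb) : Qb) ∈ F
    have : (((algebraMap ℤ Zb) r : Zb) : Qb) = ((r : ℤ) : Qb) := by simp
    rw [this]
    exact intCast_mem F r

lemma mem_intF {x : integralClosure ℤ (AlgebraicClosure ℚ)} : x ∈ intF F ↔ (x : Qb) ∈ F := Iff.rfl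

instance smulCommClass_intF : SMulCommClass F.fixingSubgroup (intF F) Zb where
  smul_comm g a x := by
    apply Subtype.ext
    show (g : GQ) (((a : Zb) : Qb) * (x : Qb)) = ((a : Zb) : Qb) * (g : GQ) (x : Qb)
    rw [map_mul]
    congr 1
    exact (IntermediateField.mem_fixingSubgroup_iff F _).mp g.2 _ a.2

instance isInvariant_intF : Algebra.IsInvariant (intF F) Zb F.fixingSubgroup where
  isInvariant := by
    intro b hb
    have h1 : (b : Qb) ∈ F := by
      have h2 : (b : Qb) ∈ IntermediateField.fixedField F.fixingSubgroup := by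
        rw [IntermediateField.mem_fixedField_iff]
        intro g hg
        exact congrArg Subtype.val (hb ⟨g, hg⟩)
      rwa [InfiniteGalois.fixedField_fixingSubgroup] at h2
    exact ⟨⟨b, h1⟩, rfl⟩

end relative

end Fermat.Agent.Inertia
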