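import Fermat.Agent.Inertia.Lift

/-!
# Lifting elements of finite level inertia groups
-/

set_option autoImplicit false
set_option linter.style.haveILetI false

open scoped Pointwise

namespace Fermat.Agent.Inertia

open Fermat.Agent.GaloisBasics

/-- The field of algebraic numbers. -/
local notation "Qb" => AlgebraicClosure ℚ
/-- The ring of algebraic integers. -/
local notation "Zb" => integralClosure ℤ (AlgebraicClosure ℚ)
/-- The absolute Galois group. -/
local notation "GQ" => (AlgebraicClosure ℚ ≃ₐ[ℚ] AlgebraicClosure ℚ)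

variable (F : IntermediateField ℚ (AlgebraicClosure ℚ))

instance compactSpace_fixing : CompactSpace F.fixingSubgroup :=
  isCompact_iff_compactSpace.mp (InfiniteGalois.fixingSubgroup_isClosed F).isCompact

/-- Surjectivity of the inertia group of `V` onto the inertia group at a finite level. -/
theorem exists_inertia_lift (hstab : ∀ g : GQ, ∀ x ∈ F, g x ∈ F) (V : ValuationSubring Qb)
    (τ : GQ)
    (hτ : ∀ x : Zb, (x : Qb) ∈ F → τ • x - x ∈ idealOf V) :
    ∃ ρ ∈ V.inertiaSubgroupIn ℚ, ∀ x ∈ F, ρ x = τ x := by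
  letI : TopologicalSpace Zb := ⊥
  haveI : DiscreteTopology Zb := ⟨rfl⟩
  haveI : ContinuousSMul GQ Zb := by
    rw [continuousSMul_iff_stabilizer_isOpen]
    intro x
    convert stabilizer_isOpen_of_isIntegral (K := ℚ) (L := Qb) (x : Qb) using 1
    ext g
    simp only [SetLike.mem_coe, MulAction.mem_stabilizer_iff]
    exact Subtype.ext_iff
  haveI : ContinuousSMul F.fixingSubgroup Zb := inferInstance
  set Q := idealOf V with hQ
  -- transitivity
  have hunder : (τ • Q).under (intF F) = Q.under (intF F) := by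
    ext x
    rw [Ideal.mem_comap, Ideal.mem_comap]
    change ((x : Zb) ∈ τ • Q) ↔ (x : Zb) ∈ Q
    have h1 : (τ⁻¹ • (x : Zb)) ∈ Q ↔ (x : Zb) ∈ τ • Q := by
      rw [← Ideal.mem_inv_pointwise_smul_iff, inv_inv]
    rw [← h1]
    have h2 := hτ (τ⁻¹ • (x : Zb)) (hstab τ⁻¹ _ x.2)
    rw [smul_inv_smul] at h2
    constructor
    · intro h3
      have := Q.add_mem h2 h3
      rwa [sub_add_cancel] at this
    · intro h3
      have := Q.sub_mem h3 h2
      rwa [sub_sub_cancel] at this
  haveI : (τ • Q).IsPrime := inferInstance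
  obtain ⟨g, hg⟩ := Algebra.IsInvariant.exists_smul_of_under_eq_of_profinite (A := intF F)
    (G := F.fixingSubgroup) (τ • Q) Q hunder
  set ρ₀ : GQ := (g : GQ) * τ with hρ₀
  have hρ₀Q : ρ₀ • Q = Q := by
    rw [hρ₀, mul_smul]
    exact hg.symm
  have hfix : ∀ g : F.fixingSubgroup, ∀ x ∈ F, (g : GQ) x = x := fun g x hx =>
    (IntermediateField.mem_fixingSubgroup_iff F _).mp g.2 x hx
  have hρ₀F : ∀ x : Zb, (x : Qb) ∈ F → ρ₀ • x = τ • x := by
    intro x hx
    apply Subtype.ext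
    change (g : GQ) (τ (x : Qb)) = τ (x : Qb)
    exact hfix g _ (hstab τ _ hx)
  -- the induced automorphism
  let e : (Zb ⧸ Q) ≃+* (Zb ⧸ Q) := Ideal.quotientEquiv Q Q
    (MulSemiringAction.toRingEquiv GQ Zb ρ₀) (by
      conv_lhs => rw [← hρ₀Q]
      rfl)
  have he : ∀ x : Zb, e (Ideal.Quotient.mk Q x) = Ideal.Quotient.mk Q (ρ₀ • x) := fun x => rfl
  let ea : (Zb ⧸ Q) ≃ₐ[intF F ⧸ Q.under (intF F)] (Zb ⧸ Q) :=
    { e with
      commutes' := by
        intro r
        obtain ⟨n, rfl⟩ := Ideal.Quotient.mk_surjective r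
        change e (Ideal.Quotient.mk Q (n : Zb)) = Ideal.Quotient.mk Q (n : Zb)
        rw [he, Ideal.Quotient.eq, hρ₀F _ n.2]
        exact hτ _ n.2 }
  obtain ⟨σ, hσ⟩ := Ideal.Quotient.stabilizerHom_surjective_of_profinite
    (G := F.fixingSubgroup) (Q.under (intF F)) Q ea
  have hσQ : ((σ : F.fixingSubgroup) : GQ) • Q = Q := σ.2
  refine ⟨((σ : F.fixingSubgroup) : GQ)⁻¹ * ρ₀, ?_, ?_⟩
  · have hst : ((σ : F.fixingSubgroup) : GQ)⁻¹ • Q = Q := by
      have := congrArg (fun I => ((σ : F.fixingSubgroup) : GQ)⁻¹ • I) hσQ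
      simp only [inv_smul_smul] at this
      exact this.symm
    apply mem_inertiaSubgroupIn
    · change (((σ : F.fixingSubgroup) : GQ)⁻¹ * ρ₀) • Q = Q
      rw [mul_smul, hρ₀Q, hst]
    · intro x
      have h1 : (Ideal.Quotient.mk Q) (((σ : F.fixingSubgroup) : GQ) • x) =
          Ideal.Quotient.mk Q (ρ₀ • x) :=
        DFunLike.congr_fun hσ (Ideal.Quotient.mk Q x)
      rw [Ideal.Quotient.eq] at h1
      have h2 : ((σ : F.fixingSubgroup) : GQ)⁻¹ • (((σ : F.fixingSubgroup) : GQ) • x - ρ₀ • x) ∈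
          ((σ : F.fixingSubgroup) : GQ)⁻¹ • Q := Ideal.smul_mem_pointwise_smul _ _ _ h1
      rw [hst, smul_sub, inv_smul_smul] at h2
      have h3 := Q.neg_mem h2
      rw [neg_sub] at h3
      rw [mul_smul]
      exact h3
  · intro x hx
    change ((σ : F.fixingSubgroup) : GQ)⁻¹ ((g : GQ) (τ x)) = τ x
    rw [hfix g _ (hstab τ _ hx)]
    exact hfix σ.1⁻¹ _ (hstab τ _ hx)

end Fermat.Agent.Inertia
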